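/-
Library EtaFN (architect helper210).  SKELETON: exact statements of all nodes, in the namespace
`Fermat.Agent.Lib.EtaFN.Skel`.  Every node `X` goes to its own file
`Fermat/Agent/Lib/EtaFN/<File>.lean`, namespace `Fermat.Agent.Lib.EtaFN` (NOT `Skel`), statement
verbatim.  While a node you depend on has not landed, import this file and use `Skel.X`.
This file is never imported by a graded file.
-/
import Fermat.Agent.Lib.EtaFN.Nice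
import Fermat.Agent.Lib.JExpansion

set_option autoImplicit false

noncomputable section

namespace Fermat.Agent.Lib.EtaFN.Skel

open UpperHalfPlane ModularCurve AlgebraicCurve Fermat.Agent.S24 Fermat.Agent.S24.B
open Fermat.Agent.S28.EtaQuot
open scoped MatrixGroups Manifold Real ModularForm

/-! ## Part A : membership -/

section A
variable {N : ℕ} [NeZero N] {f : ℍ → ℂ}

/-- A2 `Lagrange.lean`.  Lagrange interpolation against `j_N` over the cosets of `Γ₀(N)`. -/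
theorem exists_num_den (hf : IsModFun N f) :
    ∃ (a b : FN N) (a' b' : AL N), b' ≠ 0 ∧ Psi N a = algebraMap (AL N) (LN N) a' ∧
      Psi N b = algebraMap (AL N) (LN N) b' ∧ ∀ τ : ℍ, f τ * b'.1 τ = a'.1 τ := by
  sorry

/-- A3 `Member.lean`. -/
theorem exists_FN_of_isModFun (hf : IsModFun N f) :
    ∃ x : FN N, ∀ γ : SL(2, ℤ), HasTExp N (fun τ => f (γ⁻¹ • τ)) (texpL N (γ • Psi N x)) := by
  sorry

/-- A3 `Member.lean`. -/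
theorem hasTExp_level {S : LaurentSeries Kbar} (hS : HasTExp 1 f S) :
    HasTExp N f (qExpand Kbar N S) := by
  sorry

/-- A3 `Member.lean`. -/
theorem coe_eq_of_hasTExp_one {x : FN N} (hx : HasTExp N f (texpL N (Psi N x)))
    {S : LaurentSeries Kbar} (hS : HasTExp 1 f S) : (x : LaurentSeries Kbar) = S := by
  sorry

/-- A3 `Member.lean`. -/
theorem eq_of_hasTExp {x y : FN N} (hx : HasTExp N f (texpL N (Psi N x)))
    (hy : HasTExp N f (texpL N (Psi N y))) : x = y := by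
  sorry

end A

/-! ## Part B : integrality -/

section B
variable {N : ℕ} [NeZero N] {f : ℍ → ℂ}

/-- B1 `IntPoly.lean`.  (`j = 1/q + ⋯` has integral coefficients and leading coefficient `1`.) -/
theorem isIntegral_coeff_of_aeval_Jser (p : Polynomial Kbar)
    (h : ∀ n : ℤ, IsIntegral ℤ ((Polynomial.aeval (Jser 1) p).coeff n)) (k : ℕ) :
    IsIntegral ℤ (p.coeff k) := by
  sorry

/-- B2 `Integral.lean`.  `x` is a root of `∏ (X - f ∘ γ)`, whose coefficients are in `ℤ̄[j]`. -/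
theorem isIntegral_of_isIntAtCusps (hf : IsModFun N f) (hint : IsIntAtCusps N f) (x : FN N)
    (hx : HasTExp N f (texpL N (Psi N x))) : IsIntegral (Algebra.adjoin ℤ {jF N}) x := by
  sorry

/-- B3 `OrdNonneg.lean`. -/
theorem ord_nonneg_of_isIntegral (x : FN N) (hx : IsIntegral (Algebra.adjoin ℤ {jF N}) x)
    (v : Place Kbar (FN N)) (hv : 0 ≤ v.ord (jF N)) : 0 ≤ v.ord x := by
  sorry

end B

/-! ## Part C : eta quotients under `SL(2,ℤ)` -/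

section C
variable {ι : Type*} {s : Finset ι} {D : ι → ℕ} {a d : ι → ℕ} {b : ι → ℤ} {r : ι → ℤ}

/-- C1 `EtaBasic.lean`. -/
theorem eta_add_int (z : ℂ) (m : ℤ) :
    ModularForm.eta (z + m) = Complex.exp (2 * π * Complex.I * m / 24) * ModularForm.eta z := by
  sorry

/-- C1 `EtaBasic.lean`. -/
theorem eta_eq (τ : ℍ) : ModularForm.eta (τ : ℂ) =
    Function.Periodic.qParam 24 τ * JExpansion.eulerFun (Function.Periodic.qParam 1 τ) := by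
  sorry

/-- C1 `EtaBasic.lean`. -/
theorem etaAff_ne_zero {a d : ℕ} (ha : 0 < a) (hd : 0 < d) (b : ℤ) (τ : ℍ) :
    etaAff a d b τ ≠ 0 := by
  sorry

/-- C1 `EtaBasic.lean`. -/
theorem etaAff_pow {a d : ℕ} (ha : 0 < a) (hd : 0 < d) (b : ℤ) (τ : ℍ) :
    etaAff a d b τ ^ 24 = ModularForm.discriminant (aff a d b τ) := by
  sorry

/-- C1 `EtaBasic.lean`. -/
theorem etaAffProd_pow (ha : ∀ i ∈ s, 0 < a i) (hd : ∀ i ∈ s, 0 < d i) (τ : ℍ) :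
    etaAffProd s a d b r τ ^ 24 = affProd s a d b r τ := by
  sorry

/-- C1 `EtaBasic.lean`. -/
theorem etaAffProd_ne_zero (ha : ∀ i ∈ s, 0 < a i) (hd : ∀ i ∈ s, 0 < d i) (τ : ℍ) :
    etaAffProd s a d b r τ ≠ 0 := by
  sorry

/-- C1 `EtaBasic.lean`. -/
theorem etaQuot_pow (hD : ∀ i ∈ s, 0 < D i) (τ : ℍ) :
    etaQuot s D r τ ^ 24 = etaQ s D r τ := by
  sorry

/-- C1 `EtaBasic.lean`. -/
theorem etaQuot_ne_zero (hD : ∀ i ∈ s, 0 < D i) (τ : ℍ) : etaQuot s D r τ ≠ 0 := by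
  sorry

/-- C1 `EtaBasic.lean`. -/
theorem mdiff_etaAffProd (ha : ∀ i ∈ s, 0 < a i) (hd : ∀ i ∈ s, 0 < d i) :
    MDiff (etaAffProd s a d b r) := by
  sorry

/-- C1 `EtaBasic.lean`. -/
theorem mdiff_etaQuot (hD : ∀ i ∈ s, 0 < D i) : MDiff (etaQuot s D r) := by
  sorry

/-- C2 `Const.lean`.  (`ℍ` is connected, the `n`-th roots of `c` are a finite set.) -/
theorem eq_const_of_pow_eq {f : ℍ → ℂ} (hf : Continuous f) {n : ℕ} (hn : 0 < n) {c : ℂ}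
    (h : ∀ τ, f τ ^ n = c) : ∃ c₀ : ℂ, c₀ ^ n = c ∧ ∀ τ, f τ = c₀ := by
  sorry

/-- C3 `EtaSlash.lean`.  From `etaQ_slash` (S28), C1 and C2. -/
theorem etaQuot_slash (hD : ∀ i ∈ s, 0 < D i) (k : ℤ) (hk : 2 * k = ∑ i ∈ s, r i)
    (γ : SL(2, ℤ)) :
    ∃ (b : ι → ℤ) (c : ℂ), c ^ 24 = ∏ i ∈ s, ((gD D (γ 1 0) i : ℂ) ^ (-12 : ℤ)) ^ r i ∧
      ∀ τ : ℍ, (etaQuot s D r ∣[k] γ) τ =
        c * etaAffProd s (gA D (γ 1 0)) (gD D (γ 1 0)) b r τ := by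
  sorry

/-- C4 `EtaShift.lean`. -/
theorem etaAffProd_T_zpow_smul (hd : ∀ i ∈ s, 0 < d i) (h : ℤ) (m : ι → ℤ)
    (hm : ∀ i ∈ s, (a i : ℤ) * h = m i * d i) (τ : ℍ) :
    etaAffProd s a d b r (ModularGroup.T ^ h • τ) =
      Complex.exp (2 * π * Complex.I * (∑ i ∈ s, r i * m i : ℤ) / 24) * etaAffProd s a d b r τ := by
  sorry

/-- C4 `EtaShift.lean`.  Invariance under a parabolic element `δ T^h δ⁻¹`. -/
theorem etaQuot_slash_conj_T (hD : ∀ i ∈ s, 0 < D i) (k : ℤ) (hk : 2 * k = ∑ i ∈ s, r i)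
    (δ : SL(2, ℤ)) (h : ℤ) (m : ι → ℤ)
    (hm : ∀ i ∈ s, (gA D (δ 1 0) i : ℤ) * h = m i * gD D (δ 1 0) i)
    (h24 : (24 : ℤ) ∣ ∑ i ∈ s, r i * m i) :
    etaQuot s D r ∣[k] (δ * ModularGroup.T ^ h * δ⁻¹) = etaQuot s D r := by
  sorry

/-- C4 `EtaShift.lean`. -/
theorem etaQuot_slash_neg_one (k : ℤ) :
    etaQuot s D r ∣[k] (-1 : SL(2, ℤ)) = ((-1 : ℂ) ^ k) • etaQuot s D r := by
  sorry

/-- C4 `EtaShift.lean`.  Converse of the shift computation: periodicity forces `24 ∣ ∑ r m`. -/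
theorem dvd_of_etaAffProd_periodic (ha : ∀ i ∈ s, 0 < a i) (hd : ∀ i ∈ s, 0 < d i) (h : ℤ)
    (m : ι → ℤ) (hm : ∀ i ∈ s, (a i : ℤ) * h = m i * d i) (τ : ℍ)
    (hper : etaAffProd s a d b r (ModularGroup.T ^ h • τ) = etaAffProd s a d b r τ) :
    (24 : ℤ) ∣ ∑ i ∈ s, r i * m i := by
  sorry

end C

/-! ## Part C' : shapes of expansions -/

section Shape

/-- C5 `Shape.lean`. -/
theorem IsUnitShape.mul {S S' : LaurentSeries Kbar} {c c' : Kbar} {m m' : ℤ}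
    (h : IsUnitShape S c m) (h' : IsUnitShape S' c' m') :
    IsUnitShape (S * S') (c * c') (m + m') := by
  sorry

/-- C5 `Shape.lean`. -/
theorem IsUnitShape.inv {S : LaurentSeries Kbar} {c : Kbar} {m : ℤ} (h : IsUnitShape S c m) :
    IsUnitShape S⁻¹ c⁻¹ (-m) := by
  sorry

/-- C5 `Shape.lean`. -/
theorem IsUnitShape.zpow {S : LaurentSeries Kbar} {c : Kbar} {m : ℤ} (h : IsUnitShape S c m)
    (r : ℤ) : IsUnitShape (S ^ r) (c ^ r) (r * m) := by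
  sorry

/-- C5 `Shape.lean`. -/
theorem IsUnitShape.prod {ι : Type*} (s : Finset ι) {S : ι → LaurentSeries Kbar} {c : ι → Kbar}
    {m : ι → ℤ} (h : ∀ i ∈ s, IsUnitShape (S i) (c i) (m i)) :
    IsUnitShape (∏ i ∈ s, S i) (∏ i ∈ s, c i) (∑ i ∈ s, m i) := by
  sorry

/-- C5 `Shape.lean`. -/
theorem IsUnitShape.single (c : Kbar) (m : ℤ) : IsUnitShape (HahnSeries.single m c) c m := by
  sorry

/-- C5 `Shape.lean`. -/
theorem IsUnitShape.qExpand_twist {S : LaurentSeries Kbar} {c : Kbar} {m : ℤ}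
    (h : IsUnitShape S c m) (e : ℕ) [NeZero e] (ξ : Kbarˣ) (hξ : IsIntegral ℤ (ξ : Kbar)) :
    IsUnitShape (qExpand Kbar e (twist ξ S)) (c * ((ξ ^ m : Kbarˣ) : Kbar)) (e * m) := by
  sorry

/-- C5 `Shape.lean`. -/
theorem IsUnitShape.unique {S : LaurentSeries Kbar} {c c' : Kbar} {m m' : ℤ} (hc : c ≠ 0)
    (h : IsUnitShape S c m) (h' : IsUnitShape S c' m') : c = c' ∧ m = m' := by
  sorry

/-- C5 `Shape.lean`.  If `c` is integral, all the coefficients are integral. -/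
theorem IsUnitShape.isIntegral_coeff {S : LaurentSeries Kbar} {c : Kbar} {m : ℤ}
    (h : IsUnitShape S c m) (hc : IsIntegral ℤ c) (n : ℤ) : IsIntegral ℤ (S.coeff n) := by
  sorry

/-- C5 `Shape.lean`. -/
theorem isUnitShape_eulerSer : IsUnitShape eulerSer 1 0 := by
  sorry

/-- C6 `IotaRange.lean`.  Algebraic numbers are in the range of `iota`. -/
theorem exists_iota_eq {z : ℂ} (hz : IsAlgebraic ℚ z) : ∃ c : Kbar, iota c = z := by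
  sorry

/-- C6 `IotaRange.lean`. -/
theorem exists_iota_eq_of_pow {z : ℂ} {n : ℕ} (hn : 0 < n) {c : Kbar} (h : z ^ n = iota c) :
    ∃ c₀ : Kbar, iota c₀ = z ∧ c₀ ^ n = c := by
  sorry

/-- C6 `IotaRange.lean`. -/
theorem exists_iota_eq_exp (x : ℚ) :
    ∃ ξ : Kbarˣ, iota (ξ : Kbar) = Complex.exp (2 * π * Complex.I * x) ∧
      ∃ n : ℕ, 0 < n ∧ ξ ^ n = 1 := by
  sorry

end Shape

section Exp
variable {N : ℕ} [NeZero N]
variable {ι : Type*} {s : Finset ι} {D : ι → ℕ} {a d : ι → ℕ} {b : ι → ℤ} {r : ι → ℤ}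

/-- C7 `EtaExp.lean`. -/
theorem hasTExp_eulerFun :
    HasTExp 1 (fun τ : ℍ => JExpansion.eulerFun (Function.Periodic.qParam 1 τ)) eulerSer := by
  sorry

/-- C7 `EtaExp.lean`.  Expansion of `∏ η((a τ + b)/d)^r` in `t = exp(2 π i τ / N)`. -/
theorem hasTExp_etaAffProd (ha : ∀ i ∈ s, 0 < a i) (hd : ∀ i ∈ s, 0 < d i) (e : ι → ℕ)
    (he : ∀ i ∈ s, N * a i = e i * d i) (m : ℤ) (hm : 24 * m = ∑ i ∈ s, r i * e i) :
    ∃ (S : LaurentSeries Kbar) (c : Kbar), HasTExp N (etaAffProd s a d b r) S ∧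
      IsUnitShape S c m ∧ ∃ n : ℕ, 0 < n ∧ c ^ n = 1 := by
  sorry

/-- F1 `QExp.lean`.  The exact `q`-expansion at `∞`. -/
theorem hasTExp_etaQuot (hD : ∀ i ∈ s, 0 < D i) (m : ℤ) (hm : 24 * m = ∑ i ∈ s, r i * D i) :
    HasTExp 1 (etaQuot s D r) (HahnSeries.single m 1 * etaSer s D r) := by
  sorry

/-- F1 `QExp.lean`. -/
theorem isUnitShape_etaSer (hD : ∀ i ∈ s, 0 < D i) : IsUnitShape (etaSer s D r) 1 0 := by
  sorry

end Exp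

/-! ## Part D : generators of `Γ₀(4)`, `Γ₀(9)` and characters -/

section D

open CongruenceSubgroup ModularGroup

/-- D1 `Gamma04.lean`. -/
theorem lowerTri_eq (k : ℤ) : lowerTri k = S * T ^ (-k) * S⁻¹ := by
  sorry

/-- D1 `Gamma04.lean`.  Descent on `c^2 + 4 d^2` (bottom row `(c, d)`, right multiplication). -/
theorem Gamma0_four_le (K : Subgroup SL(2, ℤ)) (hneg : (-1 : SL(2, ℤ)) ∈ K) (hT : T ∈ K)
    (hL : lowerTri 4 ∈ K) : Gamma0 4 ≤ K := by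
  sorry

/-- D2 `Gamma09.lean`.  Descent on `c^2 + 9 d^2`. -/
theorem Gamma0_nine_le (K : Subgroup SL(2, ℤ)) (hneg : (-1 : SL(2, ℤ)) ∈ K) (hT : T ∈ K)
    (hL : lowerTri 9 ∈ K) (hP : lowerTri 3 * T * (lowerTri 3)⁻¹ ∈ K)
    (hP' : (lowerTri 3)⁻¹ * T * lowerTri 3 ∈ K) : Gamma0 9 ≤ K := by
  sorry

/-- D3 `Char.lean`. -/
theorem slash_Gamma0_four {F : ℍ → ℂ} {k : ℤ} (hT : F ∣[k] T = F) (hL : F ∣[k] lowerTri 4 = F)
    (hneg : F ∣[k] (-1 : SL(2, ℤ)) = ((-1 : ℂ) ^ k) • F) (γ : SL(2, ℤ)) (hγ : γ ∈ Gamma0 4) :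
    F ∣[k] γ = (chi4 (γ 1 1) ^ k) • F := by
  sorry

/-- D3 `Char.lean`. -/
theorem slash_Gamma0_nine {F : ℍ → ℂ} {k : ℤ} (hT : F ∣[k] T = F) (hL : F ∣[k] lowerTri 9 = F)
    (hP : F ∣[k] (lowerTri 3 * T * (lowerTri 3)⁻¹) = F)
    (hP' : F ∣[k] ((lowerTri 3)⁻¹ * T * lowerTri 3) = F)
    (hneg : F ∣[k] (-1 : SL(2, ℤ)) = ((-1 : ℂ) ^ k) • F) (γ : SL(2, ℤ)) (hγ : γ ∈ Gamma0 9) :
    F ∣[k] γ = (chi3 (γ 1 1) ^ k) • F := by
  sorry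

/-- D4 `CharEta.lean`. -/
theorem G4_slash (γ : SL(2, ℤ)) (hγ : γ ∈ Gamma0 4) :
    etaQuot Finset.univ D4 r4 ∣[(1 : ℤ)] γ = chi4 (γ 1 1) • etaQuot Finset.univ D4 r4 := by
  sorry

/-- D4 `CharEta.lean`. -/
theorem G9_slash (γ : SL(2, ℤ)) (hγ : γ ∈ Gamma0 9) :
    etaQuot Finset.univ D9 r9 ∣[(1 : ℤ)] γ = chi3 (γ 1 1) • etaQuot Finset.univ D9 r9 := by
  sorry

/-- D4 `CharEta.lean`. -/
theorem t4_smul (γ : SL(2, ℤ)) (hγ : γ ∈ Gamma0 4) (τ : ℍ) :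
    etaQuot Finset.univ Dt4 rt4 (γ • τ) = etaQuot Finset.univ Dt4 rt4 τ := by
  sorry

/-- D4 `CharEta.lean`. -/
theorem t9_smul (γ : SL(2, ℤ)) (hγ : γ ∈ Gamma0 9) (τ : ℍ) :
    etaQuot Finset.univ Dt9 rt9 (γ • τ) = etaQuot Finset.univ Dt9 rt9 τ := by
  sorry

end D

/-! ## Part E : eta quotients as elements of `FN N` -/

section E

open CongruenceSubgroup

variable {N : ℕ} [NeZero N]
variable {ι : Type*} {s : Finset ι} {D : ι → ℕ} {r : ι → ℤ}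

/-- E0 `EtaModFun.lean`.  Expansion of an invariant eta quotient of weight `0` at all cusps. -/
theorem etaQuot_shape (hD : ∀ i ∈ s, 0 < D i) (hDN : ∀ i ∈ s, D i ∣ N) (hr : ∑ i ∈ s, r i = 0)
    (hinv : ∀ γ ∈ Gamma0 N, ∀ τ : ℍ, etaQuot s D r (γ • τ) = etaQuot s D r τ) (γ : SL(2, ℤ)) :
    ∃ (S : LaurentSeries Kbar) (c : Kbar) (m : ℤ),
      HasTExp N (fun τ => etaQuot s D r (γ • τ)) S ∧ IsUnitShape S c m ∧
      24 * m = ∑ i ∈ s, r i * ((N * gA D (γ 1 0) i / gD D (γ 1 0) i : ℕ) : ℤ) ∧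
      ∃ n : ℕ, 0 < n ∧
        c ^ (24 * n) = (∏ i ∈ s, ((gD D (γ 1 0) i : Kbar) ^ (-12 : ℤ)) ^ r i) ^ n := by
  sorry

/-- E0 `EtaModFun.lean`. -/
theorem isModFun_etaQuot (hD : ∀ i ∈ s, 0 < D i) (hDN : ∀ i ∈ s, D i ∣ N)
    (hr : ∑ i ∈ s, r i = 0)
    (hinv : ∀ γ ∈ Gamma0 N, ∀ τ : ℍ, etaQuot s D r (γ • τ) = etaQuot s D r τ) :
    IsModFun N (etaQuot s D r) := by
  sorry

/-- E0' `EtaFN.lean`.  The element of `FN N` attached to an invariant eta quotient of weight `0`. -/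
theorem exists_FN_etaQuot (hD : ∀ i ∈ s, 0 < D i) (hDN : ∀ i ∈ s, D i ∣ N)
    (hr : ∑ i ∈ s, r i = 0)
    (hinv : ∀ γ ∈ Gamma0 N, ∀ τ : ℍ, etaQuot s D r (γ • τ) = etaQuot s D r τ)
    (m₀ : ℤ) (hm₀ : 24 * m₀ = ∑ i ∈ s, r i * D i) :
    ∃ x : FN N, (x : LaurentSeries Kbar) = HahnSeries.single m₀ 1 * etaSer s D r ∧
      (∀ γ : SL(2, ℤ), HasTExp N (fun τ => etaQuot s D r (γ⁻¹ • τ)) (texpL N (γ • Psi N x))) ∧
      ∀ γ : SL(2, ℤ), ∃ (c : Kbar) (m : ℤ), IsUnitShape (texpL N (γ • Psi N x)) c m ∧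
        24 * m = ∑ i ∈ s, r i * ((N * gA D (γ⁻¹ 1 0) i / gD D (γ⁻¹ 1 0) i : ℕ) : ℤ) ∧
        ∃ n : ℕ, 0 < n ∧
          c ^ (24 * n) = (∏ i ∈ s, ((gD D (γ⁻¹ 1 0) i : Kbar) ^ (-12 : ℤ)) ^ r i) ^ n := by
  sorry

variable {κ : Type*} [Fintype κ] {D₀ : κ → ℕ} {r₀ : κ → ℤ}

/-- E1 `Ratio.lean`. -/
theorem ratio_smul {a : ℕ} {k : ℤ} {χ : ℤ → ℂ} (hχ : ∀ d, χ d ≠ 0) (hD₀ : ∀ i, 0 < D₀ i)
    (hG : ∀ γ ∈ Gamma0 a, etaQuot Finset.univ D₀ r₀ ∣[k] γ =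
      χ (γ 1 1) • etaQuot Finset.univ D₀ r₀)
    {E E' : ℕ} (hE : 0 < E) (hE' : 0 < E') (hEN : a * E ∣ N) (hEN' : a * E' ∣ N)
    (γ : SL(2, ℤ)) (hγ : γ ∈ Gamma0 N) (τ : ℍ) :
    etaQuot Finset.univ (ratioD D₀ E E') (ratioR r₀) (γ • τ) =
      etaQuot Finset.univ (ratioD D₀ E E') (ratioR r₀) τ := by
  sorry

/-- E1 `Ratio.lean`. -/
theorem ratio_const {a : ℕ} (hD₀ : ∀ i, D₀ i ∣ a) (ha : 0 < a) {E E' : ℕ} (hE : 0 < E)
    (hE' : 0 < E') (hEa : Nat.Coprime E a) (hE'a : Nat.Coprime E' a) (k : ℤ)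
    (hk : 2 * k = ∑ i, r₀ i) (c : ℤ) :
    ∏ i : κ ⊕ κ, ((gD (ratioD D₀ E E') c i : Kbar) ^ (-12 : ℤ)) ^ ratioR r₀ i =
      (((E' / Int.gcd E' c : ℕ) : Kbar) / ((E / Int.gcd E c : ℕ) : Kbar)) ^ (24 * k) := by
  sorry

/-- E3 `UnitInt.lean`.  Integrality criterion (from B2 and `IsUnitShape.isIntegral_coeff`). -/
theorem isIntegral_of_shape {f : ℍ → ℂ} (hf : IsModFun N f) (x : FN N)
    (hx : ∀ γ : SL(2, ℤ), HasTExp N (fun τ => f (γ⁻¹ • τ)) (texpL N (γ • Psi N x)))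
    (h : ∀ γ : SL(2, ℤ), ∃ (c : Kbar) (m : ℤ), IsUnitShape (texpL N (γ • Psi N x)) c m ∧
      IsIntegral ℤ c) : IsIntegral (Algebra.adjoin ℤ {jF N}) x := by
  sorry

/-- E3 `UnitInt.lean`.  The same for `a / f`, `f` without zeros. -/
theorem isIntegral_mul_inv_of_shape {f : ℍ → ℂ} (hf : IsModFun N f) (hf0 : ∀ τ, f τ ≠ 0)
    (x : FN N)
    (hx : ∀ γ : SL(2, ℤ), HasTExp N (fun τ => f (γ⁻¹ • τ)) (texpL N (γ • Psi N x)))
    (a : Kbar)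
    (h : ∀ γ : SL(2, ℤ), ∃ (c : Kbar) (m : ℤ), IsUnitShape (texpL N (γ • Psi N x)) c m ∧
      c ≠ 0 ∧ IsIntegral ℤ (a * c⁻¹)) :
    IsIntegral (Algebra.adjoin ℤ {jF N}) (algebraMap Kbar (FN N) a * x⁻¹) := by
  sorry

/-- E2 `Unit.lean`.  CONSUMER FORM.  `x = G(E τ) / G(E' τ)` for a form `G` of weight `k` with
character on `Γ₀(a)`. -/
theorem exists_unit {a : ℕ} {k : ℤ} {χ : ℤ → ℂ} (hχ : ∀ d, χ d ≠ 0) (ha : 0 < a)
    (hD₀ : ∀ i, D₀ i ∣ a) (hk : 2 * k = ∑ i, r₀ i) (h0 : ∑ i, r₀ i * D₀ i = 0)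
    (hG : ∀ γ ∈ Gamma0 a, etaQuot Finset.univ D₀ r₀ ∣[k] γ =
      χ (γ 1 1) • etaQuot Finset.univ D₀ r₀)
    {E E' : ℕ} (hE : 0 < E) (hE' : 0 < E') (hEa : Nat.Coprime E a) (hE'a : Nat.Coprime E' a)
    (hEN : a * E ∣ N) (hEN' : a * E' ∣ N) :
    ∃ x : FN N, (x : LaurentSeries Kbar) = etaSer Finset.univ (ratioD D₀ E E') (ratioR r₀) ∧
      (∀ γ : SL(2, ℤ), HasTExp N
        (fun τ => etaQuot Finset.univ (ratioD D₀ E E') (ratioR r₀) (γ⁻¹ • τ))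
        (texpL N (γ • Psi N x))) ∧
      (∀ γ : SL(2, ℤ), ∃ (c : Kbar) (m : ℤ), IsUnitShape (texpL N (γ • Psi N x)) c m ∧
        ∃ n : ℕ, 0 < n ∧ c ^ n =
          ((((E' / Int.gcd E' (γ⁻¹ 1 0) : ℕ) : Kbar) / ((E / Int.gcd E (γ⁻¹ 1 0) : ℕ) : Kbar)) ^ k)
            ^ n) ∧
      (E ∣ E' → 0 ≤ k → IsIntegral (Algebra.adjoin ℤ {jF N}) x ∧
        IsIntegral (Algebra.adjoin ℤ {jF N})
          (algebraMap Kbar (FN N) (((E' / E : ℕ) : Kbar) ^ k) * x⁻¹)) := by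
  sorry

/-- E4 `Final.lean`.  The weight one unit at level `4`. -/
theorem exists_unit4 {E E' : ℕ} (hE : 0 < E) (hE' : 0 < E') (hE2 : Odd E) (hE2' : Odd E')
    (hEN : 4 * E ∣ N) (hEN' : 4 * E' ∣ N) :
    ∃ x : FN N, (x : LaurentSeries Kbar) = etaSer Finset.univ (ratioD D4 E E') (ratioR r4) ∧
      (∀ γ : SL(2, ℤ), ∃ (c : Kbar) (m : ℤ), IsUnitShape (texpL N (γ • Psi N x)) c m ∧
        ∃ n : ℕ, 0 < n ∧ c ^ n =
          (((E' / Int.gcd E' (γ⁻¹ 1 0) : ℕ) : Kbar) / ((E / Int.gcd E (γ⁻¹ 1 0) : ℕ) : Kbar)) ^ n) ∧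
      (E ∣ E' → IsIntegral (Algebra.adjoin ℤ {jF N}) x ∧
        IsIntegral (Algebra.adjoin ℤ {jF N}) (((E' / E : ℕ) : FN N) * x⁻¹)) := by
  sorry

/-- E4 `Final.lean`.  The weight one unit at level `9`. -/
theorem exists_unit9 {E E' : ℕ} (hE : 0 < E) (hE' : 0 < E') (hE3 : ¬ 3 ∣ E) (hE3' : ¬ 3 ∣ E')
    (hEN : 9 * E ∣ N) (hEN' : 9 * E' ∣ N) :
    ∃ x : FN N, (x : LaurentSeries Kbar) = etaSer Finset.univ (ratioD D9 E E') (ratioR r9) ∧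
      (∀ γ : SL(2, ℤ), ∃ (c : Kbar) (m : ℤ), IsUnitShape (texpL N (γ • Psi N x)) c m ∧
        ∃ n : ℕ, 0 < n ∧ c ^ n =
          (((E' / Int.gcd E' (γ⁻¹ 1 0) : ℕ) : Kbar) / ((E / Int.gcd E (γ⁻¹ 1 0) : ℕ) : Kbar)) ^ n) ∧
      (E ∣ E' → IsIntegral (Algebra.adjoin ℤ {jF N}) x ∧
        IsIntegral (Algebra.adjoin ℤ {jF N}) (((E' / E : ℕ) : FN N) * x⁻¹)) := by
  sorry

/-- E4 `Final.lean`.  The Hauptmodul `t4 = η(τ)^8/η(4τ)^8 = 1/q - 8 + ⋯`. -/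
theorem exists_t4 (hN : 4 ∣ N) :
    ∃ x : FN N, (x : LaurentSeries Kbar) = HahnSeries.single (-1) 1 * etaSer Finset.univ Dt4 rt4 ∧
      (∀ γ : SL(2, ℤ), ∃ (c : Kbar) (m : ℤ), IsUnitShape (texpL N (γ • Psi N x)) c m ∧
        12 * m = (N : ℤ) * (4 - (Int.gcd 4 (γ⁻¹ 1 0) : ℤ) ^ 2) ∧
        ∃ n : ℕ, 0 < n ∧ c ^ n = (((4 / Int.gcd 4 (γ⁻¹ 1 0) : ℕ) : Kbar) ^ 4) ^ n) ∧
      IsIntegral (Algebra.adjoin ℤ {jF N}) x ∧
      IsIntegral (Algebra.adjoin ℤ {jF N}) ((256 : FN N) * x⁻¹) := by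
  sorry

/-- E4 `Final.lean`.  The Hauptmodul `t9 = η(τ)^3/η(9τ)^3 = 1/q - 3 + ⋯`. -/
theorem exists_t9 (hN : 9 ∣ N) :
    ∃ x : FN N, (x : LaurentSeries Kbar) = HahnSeries.single (-1) 1 * etaSer Finset.univ Dt9 rt9 ∧
      (∀ γ : SL(2, ℤ), ∃ (c : Kbar) (m : ℤ), IsUnitShape (texpL N (γ • Psi N x)) c m ∧
        72 * m = (N : ℤ) * (9 - (Int.gcd 9 (γ⁻¹ 1 0) : ℤ) ^ 2) ∧
        ∃ n : ℕ, 0 < n ∧ c ^ (2 * n) = (((9 / Int.gcd 9 (γ⁻¹ 1 0) : ℕ) : Kbar) ^ 3) ^ n) ∧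
      IsIntegral (Algebra.adjoin ℤ {jF N}) x ∧
      IsIntegral (Algebra.adjoin ℤ {jF N}) ((27 : FN N) * x⁻¹) := by
  sorry

end E

end Fermat.Agent.Lib.EtaFN.Skel
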